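import Mathlib.RingTheory.Regular.RegularSequence
import Mathlib.RingTheory.MvPowerSeries.Equiv
import Mathlib.RingTheory.MvPowerSeries.Inverse
import Mathlib.RingTheory.MvPowerSeries.NoZeroDivisors
import Mathlib.RingTheory.DiscreteValuationRing.Basic

set_option autoImplicit false

namespace Fermat.Agent.S57

open RingTheory.Sequence IsLocalRing Pointwise

/-- Abstract step: `B'` retracts onto `B` with kernel generated by a regular element `t`. -/
theorem isWeaklyRegular_cons_of_retract {B B' : Type} [CommRing B] [CommRing B']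
    (ι : B →+* B') (ρ : B' →+* B) (hρι : ∀ x, ρ (ι x) = x) (t : B')
    (ht : IsSMulRegular B' t) (hker : ∀ f, ρ f = 0 ↔ t ∣ f)
    (xs : List B) (hxs : IsWeaklyRegular B xs) : IsWeaklyRegular B' (t :: xs.map ι) := by
  refine IsWeaklyRegular.cons ht ?_
  let f : B →+ QuotSMulTop t B' :=
    ((Submodule.mkQ _ : B' →ₗ[B'] QuotSMulTop t B').toAddMonoidHom).comp ι.toAddMonoidHom
  have hf_apply : ∀ x, f x = Submodule.Quotient.mk (ι x) := fun _ => rfl
  have hmem : ∀ g : B', g ∈ (t • (⊤ : Submodule B' B')) ↔ t ∣ g := by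
    intro g
    rw [Submodule.mem_smul_pointwise_iff_exists]
    constructor
    · rintro ⟨h, -, rfl⟩
      exact ⟨h, rfl⟩
    · rintro ⟨h, rfl⟩
      exact ⟨h, trivial, rfl⟩
  have hf : Function.Bijective f := by
    constructor
    · rw [injective_iff_map_eq_zero]
      intro x hx
      rw [hf_apply, Submodule.Quotient.mk_eq_zero, hmem, ← hker, hρι] at hx
      exact hx
    · intro y
      obtain ⟨g, rfl⟩ := Submodule.Quotient.mk_surjective _ y
      refine ⟨ρ g, ?_⟩
      rw [hf_apply, Submodule.Quotient.eq, hmem, ← hker, map_sub, hρι, sub_self]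
  let e : B ≃+ QuotSMulTop t B' := AddEquiv.ofBijective f hf
  have he : ∀ (s x : B), e (s • x) = ι s • e x := by
    intro s x
    change f (s • x) = ι s • f x
    rw [hf_apply, hf_apply, smul_eq_mul, map_mul, ← smul_eq_mul, Submodule.Quotient.mk_smul]
  refine (AddEquiv.isWeaklyRegular_congr (e := e) ?_).mp hxs
  exact List.forall₂_map_right_iff.mpr (List.forall₂_same.mpr fun s _ c => he s c)

theorem ofList_cons_eq_maximalIdeal_of_retract {B B' : Type} [CommRing B] [CommRing B']
    [IsLocalRing B] [IsLocalRing B']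
    (ι : B →+* B') (ρ : B' →+* B) (hρι : ∀ x, ρ (ι x) = x) (t : B')
    (hker : ∀ f, ρ f = 0 ↔ t ∣ f)
    (xs : List B) (hxs : Ideal.ofList xs = maximalIdeal B) :
    Ideal.ofList (t :: xs.map ι) = maximalIdeal B' := by
  have hρt : ρ t = 0 := (hker t).mpr dvd_rfl
  rw [Ideal.ofList_cons, ← Ideal.map_ofList, hxs]
  apply le_antisymm
  · rw [sup_le_iff, Ideal.span_singleton_le_iff_mem, Ideal.map_le_iff_le_comap]
    constructor
    · rw [mem_maximalIdeal, mem_nonunits_iff]
      intro hu
      have := hu.map ρ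
      rw [hρt] at this
      exact not_isUnit_zero this
    · intro x hx
      rw [Ideal.mem_comap, mem_maximalIdeal, mem_nonunits_iff]
      intro hu
      have := hu.map ρ
      rw [hρι] at this
      exact hx this
  · intro g hg
    have h1 : ρ g ∈ maximalIdeal B := by
      rw [mem_maximalIdeal, mem_nonunits_iff]
      intro hu
      -- `g = ι (ρ g) + t * h`, with `ι (ρ g)` a unit and `t` in the maximal ideal
      have h2 : t ∣ g - ι (ρ g) := by rw [← hker, map_sub, hρι, sub_self]
      have h3 : t ∈ maximalIdeal B' := by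
        rw [mem_maximalIdeal, mem_nonunits_iff]
        intro hu
        have := hu.map ρ
        rw [hρt] at this
        exact not_isUnit_zero this
      have h4 : g - ι (ρ g) ∈ maximalIdeal B' := Ideal.mem_of_dvd _ h2 h3
      have h5 : ι (ρ g) ∈ maximalIdeal B' := by
        have := (maximalIdeal B').sub_mem hg h4
        simpa using this
      exact h5 (hu.map ι)
    have h2 : t ∣ g - ι (ρ g) := by rw [← hker, map_sub, hρι, sub_self]
    have h6 : g = (g - ι (ρ g)) + ι (ρ g) := by ring
    rw [h6]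
    exact Ideal.add_mem _ (Ideal.mem_sup_left (Ideal.mem_span_singleton.mpr h2))
      (Ideal.mem_sup_right (Ideal.mem_map_of_mem _ h1))

theorem exists_regular_list {𝒪 : Type} [CommRing 𝒪] [IsDomain 𝒪] [IsDiscreteValuationRing 𝒪]
    (ϖ : 𝒪) (hϖ : Irreducible ϖ) (r : ℕ) :
    ∃ xs : List (MvPowerSeries (Fin r) 𝒪),
      (∀ x ∈ xs, (∃ i, x = MvPowerSeries.X i) ∨ x = MvPowerSeries.C ϖ) ∧
      IsWeaklyRegular (MvPowerSeries (Fin r) 𝒪) xs ∧
      Ideal.ofList xs = maximalIdeal (MvPowerSeries (Fin r) 𝒪) := by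
  induction r with
  | zero =>
    refine ⟨[MvPowerSeries.C ϖ], ?_, ?_, ?_⟩
    · intro x hx
      right
      simpa using hx
    · rw [isWeaklyRegular_singleton_iff]
      have h0 : (MvPowerSeries.C ϖ : MvPowerSeries (Fin 0) 𝒪) ≠ 0 := by
        intro h
        have := congrArg MvPowerSeries.constantCoeff h
        simp at this
        exact hϖ.ne_zero this
      exact (_root_.IsRegular.of_ne_zero h0).left.isSMulRegular
    · rw [Ideal.ofList_singleton]
      apply le_antisymm
      · rw [Ideal.span_singleton_le_iff_mem, mem_maximalIdeal, mem_nonunits_iff,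
          MvPowerSeries.isUnit_iff_constantCoeff, MvPowerSeries.constantCoeff_C]
        exact hϖ.not_isUnit
      · intro f hf
        rw [mem_maximalIdeal, mem_nonunits_iff, MvPowerSeries.isUnit_iff_constantCoeff,
          ← mem_nonunits_iff, ← mem_maximalIdeal,
          (IsDiscreteValuationRing.irreducible_iff_uniformizer ϖ).mp hϖ,
          Ideal.mem_span_singleton] at hf
        obtain ⟨a, ha⟩ := hf
        rw [Ideal.mem_span_singleton]
        refine ⟨MvPowerSeries.C a, ?_⟩
        rw [← map_mul, ← ha]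
        ext m
        have hm : m = 0 := Subsingleton.elim _ _
        subst hm
        simp
  | succ n ih =>
    obtain ⟨xs, hmem, hreg, hmax⟩ := ih
    let E := MvPowerSeries.finSuccEquiv 𝒪 n
    let ι : MvPowerSeries (Fin n) 𝒪 →+* MvPowerSeries (Fin (n + 1)) 𝒪 :=
      (E.symm : _ →+* _).comp PowerSeries.C
    let ρ : MvPowerSeries (Fin (n + 1)) 𝒪 →+* MvPowerSeries (Fin n) 𝒪 :=
      (PowerSeries.constantCoeff).comp (E : _ →+* _)
    have hρι : ∀ x, ρ (ι x) = x := by
      intro x
      simp [ρ, ι]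
    have hker : ∀ f, ρ f = 0 ↔ (MvPowerSeries.X 0 : MvPowerSeries (Fin (n + 1)) 𝒪) ∣ f := by
      intro f
      have h1 : ρ f = PowerSeries.constantCoeff (E f) := rfl
      rw [h1, ← PowerSeries.X_dvd_iff, ← MvPowerSeries.finSuccEquiv_X_zero]
      exact map_dvd_iff E
    have hX0 : (MvPowerSeries.X 0 : MvPowerSeries (Fin (n + 1)) 𝒪) ≠ 0 := by
      intro h
      have := congrArg (MvPowerSeries.coeff (Finsupp.single 0 1)) h
      simp [MvPowerSeries.coeff_X] at this
    have ht : IsSMulRegular (MvPowerSeries (Fin (n + 1)) 𝒪)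
        (MvPowerSeries.X 0 : MvPowerSeries (Fin (n + 1)) 𝒪) :=
      (_root_.IsRegular.of_ne_zero hX0).left.isSMulRegular
    refine ⟨MvPowerSeries.X 0 :: xs.map ι, ?_,
      isWeaklyRegular_cons_of_retract ι ρ hρι _ ht hker xs hreg,
      ofList_cons_eq_maximalIdeal_of_retract ι ρ hρι _ hker xs hmax⟩
    intro x hx
    rcases List.mem_cons.mp hx with rfl | hx
    · exact Or.inl ⟨0, rfl⟩
    · obtain ⟨y, hy, rfl⟩ := List.mem_map.mp hx
      rcases hmem y hy with ⟨i, rfl⟩ | rfl
      · left
        refine ⟨i.succ, ?_⟩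
        change E.symm (PowerSeries.C (MvPowerSeries.X i)) = _
        rw [AlgEquiv.symm_apply_eq, MvPowerSeries.finSuccEquiv_X_succ]
      · right
        change E.symm (PowerSeries.C (MvPowerSeries.C ϖ)) = _
        rw [AlgEquiv.symm_apply_eq, MvPowerSeries.finSuccEquiv_C]

end Fermat.Agent.S57
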