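import Fermat.Prelude.Def_Algebra_PatchingDatum
import Mathlib.LinearAlgebra.FreeModule.Basic
import Mathlib.RingTheory.Ideal.Quotient.Operations
import Mathlib.Algebra.Module.Torsion.Free

set_option autoImplicit false

namespace Fermat.Agent.S57

theorem repr_mem_of_mem_smul_top {A : Type} [CommRing A] {N : Type} [AddCommGroup N] [Module A N]
    {ι : Type} (β : Module.Basis ι A N) (I : Ideal A) {x : N}
    (hx : x ∈ I • (⊤ : Submodule A N)) (j : ι) : β.repr x j ∈ I := by
  induction hx using Submodule.smul_induction_on' with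
  | smul a ha n _ =>
    simpa using I.mul_mem_right _ ha
  | add x _ y _ hx hy =>
    simpa using I.add_mem hx hy

theorem endgame {𝒪 : Type} [CommRing 𝒪] {r : ℕ} {R : Type} [CommRing R] [Algebra 𝒪 R]
    {M : Type} [AddCommGroup M] [Module R M] [Nontrivial M]
    {J : Ideal (MvPowerSeries (Fin r) 𝒪)}
    (L : Algebra.PatchingLevel 𝒪 r R M J) [Module.Free (MvPowerSeries (Fin r) 𝒪) L.N] :
    Module.Free R M ∧ Module.annihilator R M = ⊥ ∧
      RingHom.ker L.ψ = Ideal.span (Set.range fun i : Fin r => L.φ (MvPowerSeries.X i)) := by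
  set I := Ideal.span (Set.range fun i : Fin r => L.φ (MvPowerSeries.X i)) with hI
  let β := Module.Free.chooseBasis (MvPowerSeries (Fin r) 𝒪) L.N
  have hIle : I ≤ RingHom.ker L.ψ := by
    rw [hI, Ideal.span_le]
    rintro _ ⟨i, rfl⟩
    exact L.ψ_φ_X i
  have hNnt : Nontrivial L.N := L.π_surjective.nontrivial
  have hker : RingHom.ker L.ψ = I := by
    refine le_antisymm (fun f hf => ?_) hIle
    obtain ⟨j⟩ : Nonempty (Module.Free.ChooseBasisIndex (MvPowerSeries (Fin r) 𝒪) L.N) :=
      β.index_nonempty
    have h1 : L.π (f • β j) = 0 := by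
      rw [L.π_smul, (RingHom.mem_ker).mp hf, zero_smul]
    have h2 := repr_mem_of_mem_smul_top β I ((L.ker_π _).mp h1) j
    simpa using h2
  have hπsum : ∀ c : Module.Free.ChooseBasisIndex (MvPowerSeries (Fin r) 𝒪) L.N →₀
      MvPowerSeries (Fin r) 𝒪, L.π (c.sum fun j a => a • β j) =
        c.sum fun j a => L.ψ a • L.π (β j) := by
    intro c
    rw [Finsupp.sum, map_sum, Finsupp.sum]
    exact Finset.sum_congr rfl fun j _ => L.π_smul _ _
  have hfree : Module.Free R M := by
    refine Module.Free.of_basis (Module.Basis.mk (v := fun j => L.π (β j)) ?_ ?_)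
    · rw [linearIndependent_iff]
      intro c hc
      obtain ⟨a, rfl⟩ := Finsupp.mapRange_surjective L.ψ (map_zero _) L.ψ_surjective c
      have h1 : L.π (a.sum fun j a => a • β j) = 0 := by
        rw [hπsum, ← hc, Finsupp.linearCombination_apply,
          Finsupp.sum_mapRange_index (h := fun i a => a • L.π (β i)) (fun _ => zero_smul _ _)]
      have h2 := (L.ker_π _).mp h1
      ext j
      have h3 := repr_mem_of_mem_smul_top β I h2 j
      have h4 : β.repr (a.sum fun j a => a • β j) = a := by
        have := β.repr_linearCombination a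
        rwa [Finsupp.linearCombination_apply] at this
      rw [h4] at h3
      simpa using hIle h3
    · rintro m -
      obtain ⟨x, rfl⟩ := L.π_surjective m
      have h1 := β.linearCombination_repr x
      rw [Finsupp.linearCombination_apply] at h1
      rw [← h1, hπsum]
      exact Submodule.sum_mem _ fun j _ =>
        Submodule.smul_mem _ _ (Submodule.subset_span ⟨j, rfl⟩)
  refine ⟨hfree, ?_, hker⟩
  have : Nontrivial R := Module.nontrivial R M
  exact Module.annihilator_eq_bot.mpr inferInstance

end Fermat.Agent.S57
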