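import Fermat.Agent.S57.MCMFree
import Fermat.Agent.S57.Endgame
import Mathlib.RingTheory.MvPowerSeries.Equiv
import Mathlib.RingTheory.MvPowerSeries.Inverse
import Mathlib.RingTheory.DiscreteValuationRing.Basic

set_option autoImplicit false

namespace Fermat.Agent.S57

open RingTheory.Sequence IsLocalRing

/-- A weakly regular sequence on the ring is weakly regular on a finite free module. -/
theorem isWeaklyRegular_pi {S : Type} [CommRing S] (d : ℕ) (xs : List S)
    (hxs : IsWeaklyRegular S xs) : IsWeaklyRegular (Fin d → S) xs := by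
  have h1 : IsWeaklyRegular (TensorProduct S S (Fin d → S)) xs := hxs.isWeaklyRegular_rTensor
  exact ((TensorProduct.lid S (Fin d → S)).isWeaklyRegular_congr xs).mp h1

/-- Transport of weak regularity to a module which is free through a ring homomorphism. -/
theorem isWeaklyRegular_of_free_via {S A : Type} [CommRing S] [CommRing A] (φ : S →+* A)
    {N : Type} [AddCommGroup N] [Module A N] {d : ℕ} (b : Fin d → N)
    (hspan : ∀ x : N, ∃ c : Fin d → S, x = ∑ i, φ (c i) • b i)
    (hrel : ∀ c : Fin d → S, ∑ i, φ (c i) • b i = 0 → ∀ i, c i = 0)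
    (xs : List S) (hxs : IsWeaklyRegular S xs) : IsWeaklyRegular N (xs.map φ) := by
  let f : (Fin d → S) →+ N :=
    { toFun := fun c => ∑ i, φ (c i) • b i
      map_zero' := by simp
      map_add' := fun c c' => by simp [add_smul, Finset.sum_add_distrib] }
  have hf : Function.Bijective f := by
    constructor
    · rw [injective_iff_map_eq_zero]
      intro c hc
      funext i
      exact hrel c hc i
    · intro x
      obtain ⟨c, hc⟩ := hspan x
      exact ⟨c, hc.symm⟩
  let e : (Fin d → S) ≃+ N := AddEquiv.ofBijective f hf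
  have he : ∀ (s : S) (c : Fin d → S), e (s • c) = φ s • e c := by
    intro s c
    change ∑ i, φ ((s • c) i) • b i = φ s • ∑ i, φ (c i) • b i
    simp [Finset.smul_sum, mul_smul]
  refine (AddEquiv.isWeaklyRegular_congr (e := e) ?_).mp (isWeaklyRegular_pi d xs hxs)
  exact List.forall₂_map_right_iff.mpr (List.forall₂_same.mpr fun s _ c => he s c)

theorem isArtinian_of_span_of_torsion {𝒪 A Q : Type} [CommRing 𝒪] [CommRing A] [Algebra 𝒪 A]
    [AddCommGroup Q] [Module A Q]
    (ϖ : 𝒪) (hϖ : (Ideal.span {ϖ}).IsMaximal) {d : ℕ} (q : Fin d → Q)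
    (hq : ∀ x : Q, ∃ c : Fin d → 𝒪, x = ∑ i, algebraMap 𝒪 A (c i) • q i)
    (htors : ∀ x : Q, algebraMap 𝒪 A ϖ • x = 0) : IsArtinian A Q := by
  let _ : Module 𝒪 Q := Module.compHom Q (algebraMap 𝒪 A)
  have hsmul : ∀ (a : 𝒪) (x : Q), a • x = algebraMap 𝒪 A a • x := fun _ _ => rfl
  have : IsScalarTower 𝒪 A Q := ⟨fun a b x => by
    rw [hsmul, Algebra.smul_def, mul_smul]⟩
  apply isArtinian_of_tower 𝒪
  let _ : Field (𝒪 ⧸ Ideal.span {ϖ}) := Ideal.Quotient.field _
  have ht : Module.IsTorsionBySet 𝒪 Q (Ideal.span {ϖ} : Ideal 𝒪) := by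
    rw [Module.isTorsionBySet_span_singleton_iff]
    intro x
    rw [hsmul, htors]
  let _ : Module (𝒪 ⧸ Ideal.span {ϖ}) Q := ht.module
  have : IsScalarTower 𝒪 (𝒪 ⧸ Ideal.span {ϖ}) Q := ht.isScalarTower
  have : Module.Finite 𝒪 Q := by
    refine Module.Finite.of_surjective (Fintype.linearCombination 𝒪 q) fun x => ?_
    obtain ⟨c, hc⟩ := hq x
    exact ⟨c, by rw [hc, Fintype.linearCombination_apply]; rfl⟩
  have : Module.Finite (𝒪 ⧸ Ideal.span {ϖ}) Q :=
    Module.Finite.of_restrictScalars_finite 𝒪 (𝒪 ⧸ Ideal.span {ϖ}) Q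
  exact isArtinian_of_surjective_algebraMap (R := 𝒪 ⧸ Ideal.span {ϖ}) Ideal.Quotient.mk_surjective

theorem finite_N {𝒪 : Type} [CommRing 𝒪] {r : ℕ} {R : Type} [CommRing R] [Algebra 𝒪 R]
    {M : Type} [AddCommGroup M] [Module R M] {J : Ideal (MvPowerSeries (Fin r) 𝒪)}
    (L : Algebra.PatchingLevel 𝒪 r R M J) : Module.Finite (MvPowerSeries (Fin r) 𝒪) L.N := by
  refine Module.Finite.of_surjective (Fintype.linearCombination (MvPowerSeries (Fin r) 𝒪) L.b)
    fun x => ?_
  obtain ⟨c, hc⟩ := L.b_span x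
  exact ⟨fun i => L.φ (c i), by rw [hc, Fintype.linearCombination_apply]⟩

theorem main_of_regular
    {𝒪 : Type} [CommRing 𝒪] [IsDomain 𝒪] [IsDiscreteValuationRing 𝒪]
    {r : ℕ} {R : Type} [CommRing R] [Algebra 𝒪 R]
    {M : Type} [AddCommGroup M] [Module R M] [Nontrivial M]
    (L : Algebra.PatchingLevel 𝒪 r R M ⊥) (ϖ : 𝒪) (hϖ : Irreducible ϖ)
    (xs : List (MvPowerSeries (Fin r) 𝒪))
    (hmem : ∀ x ∈ xs, (∃ i, x = MvPowerSeries.X i) ∨ x = MvPowerSeries.C ϖ)
    (hreg : IsRegular (MvPowerSeries (Fin r) 𝒪) xs)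
    (hmax : Ideal.ofList xs = maximalIdeal (MvPowerSeries (Fin r) 𝒪)) :
    Module.Free R M ∧ Module.annihilator R M = ⊥ ∧
      RingHom.ker L.ψ = Ideal.span (Set.range fun i : Fin r => L.φ (MvPowerSeries.X i)) := by
  have hfin : Module.Finite (MvPowerSeries (Fin r) 𝒪) L.N := finite_N L
  have hRnt : Nontrivial R := Module.nontrivial R M
  have hφC : ∀ a : 𝒪, L.φ (MvPowerSeries.C a) = MvPowerSeries.C a := fun a => by
    have := L.φ.commutes a
    rwa [MvPowerSeries.algebraMap_apply, Algebra.algebraMap_self, RingHom.id_apply] at this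
  have hCϖ : MvPowerSeries.C ϖ ∈ maximalIdeal (MvPowerSeries (Fin r) 𝒪) := by
    rw [mem_maximalIdeal, mem_nonunits_iff, MvPowerSeries.isUnit_iff_constantCoeff,
      MvPowerSeries.constantCoeff_C]
    exact hϖ.not_isUnit
  set ys := xs.map L.φ.toRingHom with hys
  have hofList : Ideal.ofList ys = (maximalIdeal (MvPowerSeries (Fin r) 𝒪)).map L.φ.toRingHom := by
    rw [hys, ← Ideal.map_ofList, hmax]
  have hwr : IsWeaklyRegular L.N ys :=
    isWeaklyRegular_of_free_via L.φ.toRingHom L.b L.b_span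
      (fun c hc i => by simpa using (L.b_rel c).mp hc i) xs hreg.toIsWeaklyRegular
  have hym : ∀ y ∈ ys, y ∈ maximalIdeal (MvPowerSeries (Fin r) 𝒪) := by
    intro y hy
    obtain ⟨x, hx, rfl⟩ := List.mem_map.mp hy
    rcases hmem x hx with ⟨i, rfl⟩ | rfl
    · rw [mem_maximalIdeal, mem_nonunits_iff]
      intro hu
      have := hu.map L.ψ
      erw [L.ψ_φ_X i] at this
      exact not_isUnit_zero this
    · erw [hφC]
      exact hCϖ
  have hfl : IsFiniteLength (MvPowerSeries (Fin r) 𝒪)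
      (L.N ⧸ Ideal.ofList ys • (⊤ : Submodule (MvPowerSeries (Fin r) 𝒪) L.N)) := by
    rw [isFiniteLength_iff_isNoetherian_isArtinian]
    refine ⟨inferInstance, ?_⟩
    have hmaxϖ : (Ideal.span {ϖ}).IsMaximal := by
      rw [← (IsDiscreteValuationRing.irreducible_iff_uniformizer ϖ).mp hϖ]
      infer_instance
    refine isArtinian_of_span_of_torsion (𝒪 := 𝒪) ϖ hmaxϖ
      (fun i => Submodule.Quotient.mk (L.b i)) ?_ ?_
    · intro x
      obtain ⟨n, rfl⟩ := Submodule.Quotient.mk_surjective _ x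
      obtain ⟨c, hc⟩ := L.b_span n
      refine ⟨fun i => MvPowerSeries.constantCoeff (c i), ?_⟩
      simp only [← Submodule.mkQ_apply, ← map_smul]
      rw [← map_sum, Submodule.mkQ_apply, Submodule.mkQ_apply, Submodule.Quotient.eq, hc,
        ← Finset.sum_sub_distrib]
      refine Submodule.sum_mem _ fun i _ => ?_
      rw [← sub_smul]
      refine Submodule.smul_mem_smul ?_ trivial
      rw [hofList, MvPowerSeries.algebraMap_apply, Algebra.algebraMap_self, RingHom.id_apply,
        ← hφC, ← map_sub]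
      refine Ideal.mem_map_of_mem L.φ.toRingHom ?_
      rw [mem_maximalIdeal, mem_nonunits_iff, MvPowerSeries.isUnit_iff_constantCoeff]
      simp
    · intro x
      obtain ⟨n, rfl⟩ := Submodule.Quotient.mk_surjective _ x
      rw [← Submodule.Quotient.mk_smul, Submodule.Quotient.mk_eq_zero]
      refine Submodule.smul_mem_smul ?_ trivial
      rw [hofList, MvPowerSeries.algebraMap_apply, Algebra.algebraMap_self, RingHom.id_apply,
        ← hφC]
      exact Ideal.mem_map_of_mem L.φ.toRingHom hCϖ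
  have hfree : Module.Free (MvPowerSeries (Fin r) 𝒪) L.N :=
    free_of_isRegular xs hreg hmax ys hwr hym (List.length_map _) hfl
  exact endgame L

end Fermat.Agent.S57
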