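import Mathlib.RingTheory.Regular.ProjectiveDimension
import Mathlib.RingTheory.FiniteLength
import Mathlib.RingTheory.SimpleModule.Basic

set_option autoImplicit false

namespace Fermat.Agent.S57

open CategoryTheory Abelian IsLocalRing Module RingTheory.Sequence

theorem hasProjDimLT_of_isFiniteLength {A : Type} [CommRing A] [IsLocalRing A]
    (n : ℕ) (hk : HasProjectiveDimensionLT (ModuleCat.of A (A ⧸ maximalIdeal A)) n)
    (L : Type) [AddCommGroup L] [Module A L] (hL : IsFiniteLength A L) :
    HasProjectiveDimensionLT (ModuleCat.of A L) n := by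
  induction hL with
  | of_subsingleton =>
    rename_i M _ _ _
    have : Limits.IsZero (ModuleCat.of A M) := ModuleCat.isZero_of_subsingleton _
    have := this.hasProjectiveDimensionLT_zero
    exact hasProjectiveDimensionLT_of_ge _ 0 n (Nat.zero_le _)
  | of_simple_quotient h ih =>
    rename_i M _ _ K hs
    obtain ⟨I, hI, ⟨e⟩⟩ := isSimpleModule_iff_quot_maximal.mp hs
    have hI' : I = maximalIdeal A := IsLocalRing.eq_maximalIdeal hI
    subst hI'
    have hS := LinearMap.shortExact_shortComplexKer (f := K.mkQ) K.mkQ_surjective
    have h3 : HasProjectiveDimensionLT (K.mkQ.shortComplexKer).X₃ n :=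
      hasProjectiveDimensionLT_of_iso (e.symm.toModuleIso) n
    have h1 : HasProjectiveDimensionLT (K.mkQ.shortComplexKer).X₁ n :=
      hasProjectiveDimensionLT_of_iso ((LinearEquiv.ofEq _ _ K.ker_mkQ.symm).toModuleIso) n
    exact hS.hasProjectiveDimensionLT_X₂ n h1 h3

/-- A finitely generated module over a Noetherian local ring whose maximal ideal is generated by
a regular sequence of length `n`, admitting a weakly regular sequence of length `n` inside the
maximal ideal with finite length quotient, is free. -/
theorem free_of_isRegular {A : Type} [CommRing A] [IsLocalRing A] [IsNoetherianRing A]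
    (xs : List A) (hxs : RingTheory.Sequence.IsRegular A xs)
    (hxm : Ideal.ofList xs = IsLocalRing.maximalIdeal A)
    {N : Type} [AddCommGroup N] [Module A N] [Module.Finite A N]
    (ys : List A) (hys : RingTheory.Sequence.IsWeaklyRegular N ys)
    (hym : ∀ y ∈ ys, y ∈ IsLocalRing.maximalIdeal A)
    (hlen : ys.length = xs.length)
    (hfl : IsFiniteLength A (N ⧸ Ideal.ofList ys • (⊤ : Submodule A N))) :
    Module.Free A N := by
  rcases subsingleton_or_nontrivial N with hN | hN
  · infer_instance
  have h1 := ModuleCat.projectiveDimension_quotient_eq_add_length_of_isWeaklyRegular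
    (ModuleCat.of A N) ys hys hym
  have h2 := ModuleCat.projectiveDimension_quotient_eq_length.{0} xs hxs
  have hk : HasProjectiveDimensionLT (ModuleCat.of A (A ⧸ maximalIdeal A)) (xs.length + 1) := by
    have h3 : projectiveDimension (ModuleCat.of A (A ⧸ maximalIdeal A)) = xs.length := by
      rw [← h2, hxm]
      exact projectiveDimension_eq_of_iso (Shrink.linearEquiv A _).symm.toModuleIso
    exact (projectiveDimension_le_iff _ _).mp h3.le
  have h4 := hasProjDimLT_of_isFiniteLength _ hk _ hfl
  have h5 : projectiveDimension (ModuleCat.of A (N ⧸ Ideal.ofList ys • (⊤ : Submodule A N)))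
      ≤ xs.length := (projectiveDimension_le_iff _ _).mpr h4
  rw [h1, hlen] at h5
  have h6 : projectiveDimension (ModuleCat.of A N) ≤ (0 : ℕ) := by
    have : projectiveDimension (ModuleCat.of A N) + (xs.length : ℕ) ≤
        ((0 : ℕ) : WithBot ℕ∞) + (xs.length : ℕ) := by simpa using h5
    exact ENat.WithBot.add_le_add_natCast_right_iff.mp this
  have h7 : HasProjectiveDimensionLE (ModuleCat.of A N) 0 := (projectiveDimension_le_iff _ _).mp h6
  have h8 : Projective (ModuleCat.of A N) := (projective_iff_hasProjectiveDimensionLE_zero _).mpr h7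
  have h9 : Module.Projective A N := (IsProjective.iff_projective _).mpr h8
  exact Module.free_of_flat_of_isLocalRing

end Fermat.Agent.S57
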